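/-
S28 (Igusa), block S28b, part 1: the Gauss ring of Laurent series over a discrete valuation ring.

For a discrete valuation ring `A` with fraction field `Q` and residue field `k`, the subring
`gaussRing A Q = { a / b : a, b ∈ A((q)), b̄ ≠ 0 } ⊆ Q((q))` carries a reduction map to `k((q))`; it
is a valuation ring of the field `gaussField A Q = Frac A((q)) ⊆ Q((q))`, hence integrally closed
in it.
-/
import Mathlib
import Fermat.Prelude.Def_ModularCurve_LaurentCoeff

set_option autoImplicit false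
set_option linter.unusedSectionVars false

open ModularCurve

namespace Fermat.Agent.S28.Gauss

variable (A : Type*) [CommRing A] [IsDomain A] [IsDiscreteValuationRing A]
  (Q : Type*) [Field Q] [Algebra A Q] [IsFractionRing A Q]

/-- The coefficientwise embedding `A((q)) → Q((q))`. -/
noncomputable def emb : LaurentSeries A →+* LaurentSeries Q := coeffMap (algebraMap A Q)

/-- The coefficientwise reduction `A((q)) → k((q))`. -/
noncomputable def red : LaurentSeries A →+* LaurentSeries (IsLocalRing.ResidueField A) :=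
  coeffMap (IsLocalRing.residue A)

variable {A}

@[simp] theorem emb_coeff (a : LaurentSeries A) (n : ℤ) :
    (emb A Q a).coeff n = algebraMap A Q (a.coeff n) := rfl

@[simp] theorem red_coeff (a : LaurentSeries A) (n : ℤ) :
    (red A a).coeff n = IsLocalRing.residue A (a.coeff n) := rfl

theorem emb_injective : Function.Injective (emb A Q) := by
  intro a b h
  ext n
  have := congrArg (fun x : LaurentSeries Q => x.coeff n) h
  exact IsFractionRing.injective A Q this

theorem emb_eq_zero_iff {a : LaurentSeries A} : emb A Q a = 0 ↔ a = 0 :=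
  map_eq_zero_iff _ (emb_injective Q)

theorem emb_smul (c : A) (a : LaurentSeries A) :
    emb A Q (c • a) = algebraMap A Q c • emb A Q a := by
  ext n
  rw [emb_coeff, HahnSeries.coeff_smul, HahnSeries.coeff_smul, emb_coeff, smul_eq_mul, map_mul,
    smul_eq_mul]

theorem red_smul (c : A) (a : LaurentSeries A) :
    red A (c • a) = IsLocalRing.residue A c • red A a := by
  ext n
  rw [red_coeff, HahnSeries.coeff_smul, HahnSeries.coeff_smul, red_coeff, smul_eq_mul, map_mul,
    smul_eq_mul]

/-- A series all of whose coefficients are divisible by `ϖ` is `ϖ` times a series. -/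
theorem exists_smul_eq_of_forall_dvd (ϖ : A) (a : LaurentSeries A) (h : ∀ n, ϖ ∣ a.coeff n) :
    ∃ b : LaurentSeries A, a = ϖ • b := by
  classical
  by_cases hϖ : ϖ = 0
  · refine ⟨0, ?_⟩
    ext n
    obtain ⟨c, hc⟩ := h n
    rw [hc, hϖ, zero_mul, smul_zero, HahnSeries.coeff_zero]
  let d : A → A := fun x => if hx : ϖ ∣ x then Classical.choose hx else 0
  have hd : ∀ x, ϖ ∣ x → ϖ * d x = x := by
    intro x hx
    simp only [d, dif_pos hx]
    exact (Classical.choose_spec hx).symm
  have hd0 : d 0 = 0 := by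
    have := hd 0 (dvd_zero ϖ)
    exact (mul_eq_zero.mp this).resolve_left hϖ
  refine ⟨a.map (⟨d, hd0⟩ : ZeroHom A A), ?_⟩
  ext n
  rw [HahnSeries.coeff_smul, HahnSeries.map_coeff, smul_eq_mul]
  exact (hd _ (h n)).symm

/-- The kernel of the reduction map is generated by a uniformizer. -/
theorem exists_smul_eq_of_red_eq_zero {ϖ : A} (hϖ : Irreducible ϖ) {a : LaurentSeries A}
    (h : red A a = 0) : ∃ b : LaurentSeries A, a = ϖ • b := by
  apply exists_smul_eq_of_forall_dvd
  intro n
  have hn : IsLocalRing.residue A (a.coeff n) = 0 := by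
    rw [← red_coeff, h, HahnSeries.coeff_zero]
  rw [IsLocalRing.residue_eq_zero_iff, hϖ.maximalIdeal_eq, Ideal.mem_span_singleton] at hn
  exact hn

theorem red_eq_zero_of_smul {ϖ : A} (hϖ : Irreducible ϖ) (b : LaurentSeries A) :
    red A (ϖ • b) = 0 := by
  rw [red_smul]
  have : IsLocalRing.residue A ϖ = 0 := by
    rw [IsLocalRing.residue_eq_zero_iff, hϖ.maximalIdeal_eq]
    exact Ideal.mem_span_singleton_self ϖ
  rw [this, zero_smul]

/-- Extraction of the content: a nonzero series is a power of the uniformizer times a series with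
nonzero reduction. -/
theorem exists_pow_smul_eq {ϖ : A} (hϖ : Irreducible ϖ) {a : LaurentSeries A} (ha : a ≠ 0) :
    ∃ (m : ℕ) (a' : LaurentSeries A), a = ϖ ^ m • a' ∧ red A a' ≠ 0 := by
  obtain ⟨n, hn⟩ : ∃ n, a.coeff n ≠ 0 := by
    by_contra hcon
    push Not at hcon
    exact ha (HahnSeries.ext (funext hcon))
  obtain ⟨M, c, hc, hM⟩ := WfDvdMonoid.max_power_factor hn hϖ
  clear hn
  induction M generalizing a c with
  | zero =>
    refine ⟨0, a, by rw [pow_zero, one_smul], ?_⟩
    intro h0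
    have h1 : IsLocalRing.residue A (a.coeff n) = 0 := by
      rw [← red_coeff, h0, HahnSeries.coeff_zero]
    rw [IsLocalRing.residue_eq_zero_iff, hϖ.maximalIdeal_eq, Ideal.mem_span_singleton, hM,
      pow_zero, one_mul] at h1
    exact hc h1
  | succ M ih =>
    by_cases h0 : red A a = 0
    · obtain ⟨b, rfl⟩ := exists_smul_eq_of_red_eq_zero hϖ h0
      have hb : b ≠ 0 := by
        rintro rfl
        exact ha (smul_zero _)
      have hbn : b.coeff n = ϖ ^ M * c := by
        rw [HahnSeries.coeff_smul, smul_eq_mul, pow_succ, mul_comm (ϖ ^ M) ϖ, mul_assoc] at hM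
        exact mul_left_cancel₀ hϖ.ne_zero hM
      obtain ⟨m, a', hm, ha'⟩ := ih hb c hc hbn
      refine ⟨m + 1, a', ?_, ha'⟩
      rw [hm, pow_succ, mul_comm, mul_smul]
    · exact ⟨0, a, by rw [pow_zero, one_smul], h0⟩

variable (A)

/-- The Gauss ring: quotients `a / b` of Laurent series over `A` with `b` of nonzero reduction. -/
def gaussRing : Subring (LaurentSeries Q) where
  carrier := {x | ∃ a b : LaurentSeries A, red A b ≠ 0 ∧ x * emb A Q b = emb A Q a}
  mul_mem' := by
    rintro x y ⟨a, b, hb, hx⟩ ⟨c, d, hd, hy⟩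
    refine ⟨a * c, b * d, ?_, ?_⟩
    · rw [map_mul]; exact mul_ne_zero hb hd
    · rw [map_mul, map_mul, ← hx, ← hy]; ring
  one_mem' := ⟨1, 1, by rw [map_one]; exact one_ne_zero, by rw [map_one, mul_one]⟩
  add_mem' := by
    rintro x y ⟨a, b, hb, hx⟩ ⟨c, d, hd, hy⟩
    refine ⟨a * d + c * b, b * d, ?_, ?_⟩
    · rw [map_mul]; exact mul_ne_zero hb hd
    · rw [map_add, map_mul, map_mul, map_mul, ← hx, ← hy]; ring
  zero_mem' := ⟨0, 1, by rw [map_one]; exact one_ne_zero, by rw [map_zero, zero_mul]⟩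
  neg_mem' := by
    rintro x ⟨a, b, hb, hx⟩
    exact ⟨-a, b, hb, by rw [map_neg, ← hx, neg_mul]⟩

variable {A Q}

theorem mem_gaussRing_iff {x : LaurentSeries Q} :
    x ∈ gaussRing A Q ↔
      ∃ a b : LaurentSeries A, red A b ≠ 0 ∧ x * emb A Q b = emb A Q a := Iff.rfl

theorem red_ne_zero_imp_ne_zero {b : LaurentSeries A} (hb : red A b ≠ 0) : b ≠ 0 := by
  rintro rfl
  exact hb (map_zero _)

theorem emb_mem_gaussRing (a : LaurentSeries A) : emb A Q a ∈ gaussRing A Q :=
  ⟨a, 1, by rw [map_one]; exact one_ne_zero, by rw [map_one, mul_one]⟩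

variable (A Q)

/-- The fraction field of `A((q))` inside `Q((q))`. -/
def gaussField : IntermediateField Q (LaurentSeries Q) where
  carrier := {x | ∃ a b : LaurentSeries A, b ≠ 0 ∧ x * emb A Q b = emb A Q a}
  mul_mem' := by
    rintro x y ⟨a, b, hb, hx⟩ ⟨c, d, hd, hy⟩
    refine ⟨a * c, b * d, mul_ne_zero hb hd, ?_⟩
    rw [map_mul, map_mul, ← hx, ← hy]; ring
  one_mem' := ⟨1, 1, one_ne_zero, by rw [map_one, mul_one]⟩
  add_mem' := by
    rintro x y ⟨a, b, hb, hx⟩ ⟨c, d, hd, hy⟩
    refine ⟨a * d + c * b, b * d, mul_ne_zero hb hd, ?_⟩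
    rw [map_add, map_mul, map_mul, map_mul, ← hx, ← hy]; ring
  zero_mem' := ⟨0, 1, one_ne_zero, by rw [map_zero, zero_mul]⟩
  inv_mem' := by
    rintro x ⟨a, b, hb, hx⟩
    by_cases hx0 : x = 0
    · rw [hx0, inv_zero]
      exact ⟨0, 1, one_ne_zero, by rw [map_zero, zero_mul]⟩
    · have ha : a ≠ 0 := by
        rintro rfl
        rw [map_zero] at hx
        rcases mul_eq_zero.mp hx with h | h
        · exact hx0 h
        · exact hb ((emb_eq_zero_iff Q).mp h)
      refine ⟨b, a, ha, ?_⟩
      rw [← hx, ← mul_assoc, inv_mul_cancel₀ hx0, one_mul]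
  algebraMap_mem' := by
    intro c
    obtain ⟨a, b, hb, rfl⟩ := IsFractionRing.div_surjective (A := A) c
    have hb0 : b ≠ 0 := nonZeroDivisors.ne_zero hb
    refine ⟨HahnSeries.C a, HahnSeries.C b, ?_, ?_⟩
    · intro h
      exact hb0 (HahnSeries.C_injective (h.trans (map_zero _).symm))
    · have hbQ : algebraMap A Q b ≠ 0 := by
        rw [Ne, map_eq_zero_iff _ (IsFractionRing.injective A Q)]
        exact hb0
      have hC : ∀ c : A, emb A Q (HahnSeries.C c) = HahnSeries.single 0 (algebraMap A Q c) :=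
        fun c => coeffMap_single _ _ _
      rw [algebraMap_laurentSeries_eq_single, hC, hC, HahnSeries.single_mul_single, add_zero,
        div_mul_cancel₀ _ hbQ]

variable {A Q}

theorem mem_gaussField_iff {x : LaurentSeries Q} :
    x ∈ gaussField A Q ↔
      ∃ a b : LaurentSeries A, b ≠ 0 ∧ x * emb A Q b = emb A Q a := Iff.rfl

theorem gaussRing_le_gaussField {x : LaurentSeries Q} (hx : x ∈ gaussRing A Q) :
    x ∈ gaussField A Q := by
  obtain ⟨a, b, hb, h⟩ := hx
  exact ⟨a, b, red_ne_zero_imp_ne_zero hb, h⟩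

theorem emb_mem_gaussField (a : LaurentSeries A) : emb A Q a ∈ gaussField A Q :=
  gaussRing_le_gaussField (emb_mem_gaussRing a)

/-- The underlying function of the reduction map. -/
noncomputable def gaussRedFun (x : gaussRing A Q) : LaurentSeries (IsLocalRing.ResidueField A) :=
  red A (Classical.choose x.2) / red A (Classical.choose (Classical.choose_spec x.2))

theorem gaussRedFun_eq (x : gaussRing A Q) {a b : LaurentSeries A} (hb : red A b ≠ 0)
    (h : (x : LaurentSeries Q) * emb A Q b = emb A Q a) :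
    gaussRedFun x = red A a / red A b := by
  obtain ⟨hb₀, h₀⟩ := Classical.choose_spec (Classical.choose_spec x.2)
  set a₀ := Classical.choose x.2
  set b₀ := Classical.choose (Classical.choose_spec x.2)
  show red A a₀ / red A b₀ = red A a / red A b
  have key : a₀ * b = a * b₀ := by
    apply emb_injective Q
    rw [map_mul, map_mul, ← h₀, ← h]
    ring
  rw [div_eq_div_iff hb₀ hb, ← map_mul, ← map_mul, key]

/-- The reduction map of the Gauss ring. -/
noncomputable def gaussRed : gaussRing A Q →+* LaurentSeries (IsLocalRing.ResidueField A) where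
  toFun := gaussRedFun
  map_one' := by
    have h := gaussRedFun_eq (1 : gaussRing A Q) (a := 1) (b := 1)
      (by rw [map_one]; exact one_ne_zero)
      (by rw [map_one, mul_one]; rfl)
    rw [h, map_one, div_one]
  map_mul' := by
    intro x y
    obtain ⟨a, b, hb, hx⟩ := x.2
    obtain ⟨c, d, hd, hy⟩ := y.2
    have hbd : red A (b * d) ≠ 0 := by rw [map_mul]; exact mul_ne_zero hb hd
    have hxy : ((x * y : gaussRing A Q) : LaurentSeries Q) * emb A Q (b * d) = emb A Q (a * c) := by
      rw [Subring.coe_mul, map_mul, map_mul, ← hx, ← hy]; ring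
    rw [gaussRedFun_eq _ hbd hxy, gaussRedFun_eq x hb hx, gaussRedFun_eq y hd hy, map_mul, map_mul,
      mul_div_mul_comm]
  map_zero' := by
    have h := gaussRedFun_eq (0 : gaussRing A Q) (a := 0) (b := 1)
      (by rw [map_one]; exact one_ne_zero)
      (by rw [map_zero, Subring.coe_zero, zero_mul])
    rw [h, map_zero, zero_div]
  map_add' := by
    intro x y
    obtain ⟨a, b, hb, hx⟩ := x.2
    obtain ⟨c, d, hd, hy⟩ := y.2
    have hbd : red A (b * d) ≠ 0 := by rw [map_mul]; exact mul_ne_zero hb hd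
    have hxy : ((x + y : gaussRing A Q) : LaurentSeries Q) * emb A Q (b * d) =
        emb A Q (a * d + b * c) := by
      rw [Subring.coe_add, map_add, map_mul, map_mul, map_mul, ← hx, ← hy]; ring
    rw [gaussRedFun_eq _ hbd hxy, gaussRedFun_eq x hb hx, gaussRedFun_eq y hd hy, map_add, map_mul,
      map_mul, map_mul, div_add_div _ _ hb hd]

theorem gaussRed_eq (x : gaussRing A Q) {a b : LaurentSeries A} (hb : red A b ≠ 0)
    (h : (x : LaurentSeries Q) * emb A Q b = emb A Q a) :
    gaussRed x = red A a / red A b :=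
  gaussRedFun_eq x hb h

theorem gaussRed_emb (a : LaurentSeries A) :
    gaussRed (⟨emb A Q a, emb_mem_gaussRing a⟩ : gaussRing A Q) = red A a := by
  rw [gaussRed_eq _ (a := a) (b := 1) (by rw [map_one]; exact one_ne_zero)
    (by rw [map_one, mul_one]), map_one, div_one]

/-- An element of a field which is integral over a subring containing its inverse lies in the
subring. -/
theorem mem_of_isIntegral_of_inv_mem {L : Type*} [Field L] (S : Subring L) {x : L}
    (hint : IsIntegral S x) (hy : x⁻¹ ∈ S) : x ∈ S := by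
  by_cases hx0 : x = 0
  · rw [hx0]; exact S.zero_mem
  obtain ⟨p, hp, hpx⟩ := hint
  have hpx' : ∑ i ∈ Finset.range (p.natDegree + 1), (p.coeff i : L) * x ^ i = 0 := by
    rw [Polynomial.eval₂_eq_sum_range] at hpx
    exact hpx
  rw [Finset.sum_range_succ, hp.coeff_natDegree, Subring.coe_one, one_mul] at hpx'
  have hn : p.natDegree ≠ 0 := by
    intro h0
    rw [h0, Finset.range_zero, Finset.sum_empty, zero_add, pow_zero] at hpx'
    exact one_ne_zero hpx'
  obtain ⟨n, hn'⟩ := Nat.exists_eq_succ_of_ne_zero hn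
  rw [hn'] at hpx'
  have hx : x = -∑ i ∈ Finset.range (n + 1), (p.coeff i : L) * x⁻¹ ^ (n - i) := by
    have h1 : x ^ (n + 1) = -∑ i ∈ Finset.range (n + 1), (p.coeff i : L) * x ^ i :=
      eq_neg_of_add_eq_zero_right hpx'
    have h2 : x = x ^ (n + 1) * x⁻¹ ^ n := by
      rw [pow_succ, mul_comm (x ^ n) x, mul_assoc, ← mul_pow, mul_inv_cancel₀ hx0, one_pow, mul_one]
    have h4 : ∀ i ∈ Finset.range (n + 1),
        (p.coeff i : L) * x ^ i * x⁻¹ ^ n = (p.coeff i : L) * x⁻¹ ^ (n - i) := by
      intro i hi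
      have hi' : i ≤ n := Nat.lt_succ_iff.mp (Finset.mem_range.mp hi)
      have h3 : x ^ i * x⁻¹ ^ n = x⁻¹ ^ (n - i) := by
        obtain ⟨k, rfl⟩ := Nat.exists_eq_add_of_le hi'
        rw [Nat.add_sub_cancel_left, pow_add, ← mul_assoc, ← mul_pow, mul_inv_cancel₀ hx0,
          one_pow, one_mul]
      rw [mul_assoc, h3]
    calc x = x ^ (n + 1) * x⁻¹ ^ n := h2
      _ = -∑ i ∈ Finset.range (n + 1), (p.coeff i : L) * x ^ i * x⁻¹ ^ n := by
        rw [h1, neg_mul, Finset.sum_mul]
      _ = -∑ i ∈ Finset.range (n + 1), (p.coeff i : L) * x⁻¹ ^ (n - i) := by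
        rw [Finset.sum_congr rfl h4]
  rw [hx]
  exact S.neg_mem (S.sum_mem fun i _ => S.mul_mem (p.coeff i).2 (S.pow_mem hy _))

theorem ne_zero_of_gaussRed_ne_zero {x : gaussRing A Q} (h : gaussRed x ≠ 0) :
    (x : LaurentSeries Q) ≠ 0 := by
  intro hx
  apply h
  have : x = 0 := Subtype.ext hx
  rw [this, map_zero]

/-- An element of the Gauss ring with nonzero reduction is a unit of the Gauss ring. -/
theorem inv_mem_gaussRing_of_gaussRed_ne_zero {x : gaussRing A Q} (h : gaussRed x ≠ 0) :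
    (x : LaurentSeries Q)⁻¹ ∈ gaussRing A Q := by
  obtain ⟨a, b, hb, hx⟩ := x.2
  have hx0 := ne_zero_of_gaussRed_ne_zero h
  rw [gaussRed_eq x hb hx] at h
  have ha : red A a ≠ 0 := fun h0 => h (by rw [h0, zero_div])
  refine ⟨b, a, ha, ?_⟩
  rw [← hx, ← mul_assoc, inv_mul_cancel₀ hx0, one_mul]

/-- The Gauss ring is a valuation ring of the Gauss field; moreover, if `x` is not in the Gauss
ring then `x⁻¹` has zero reduction. -/
theorem mem_gaussRing_or_inv {x : LaurentSeries Q} (hx : x ∈ gaussField A Q) (hx0 : x ≠ 0) :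
    x ∈ gaussRing A Q ∨ ∃ h : x⁻¹ ∈ gaussRing A Q, gaussRed ⟨x⁻¹, h⟩ = 0 := by
  obtain ⟨ϖ, hϖ⟩ := IsDiscreteValuationRing.exists_irreducible A
  obtain ⟨a, b, hb, hab⟩ := hx
  have ha : a ≠ 0 := by
    rintro rfl
    rw [map_zero] at hab
    rcases mul_eq_zero.mp hab with h | h
    · exact hx0 h
    · exact hb ((emb_eq_zero_iff Q).mp h)
  obtain ⟨m, a', rfl, ha'⟩ := exists_pow_smul_eq hϖ ha
  obtain ⟨n, b', rfl, hb'⟩ := exists_pow_smul_eq hϖ hb
  have hϖQ : (HahnSeries.C (algebraMap A Q ϖ) : LaurentSeries Q) ≠ 0 := by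
    intro h
    have h' := HahnSeries.C_injective (h.trans (map_zero _).symm)
    rw [map_eq_zero_iff _ (IsFractionRing.injective A Q)] at h'
    exact hϖ.ne_zero h'
  rw [emb_smul, emb_smul, map_pow, map_pow, ← HahnSeries.C_mul_eq_smul, ← HahnSeries.C_mul_eq_smul,
    map_pow, map_pow] at hab
  rcases le_or_gt n m with hnm | hnm
  · left
    refine ⟨ϖ ^ (m - n) • a', b', hb', ?_⟩
    obtain ⟨k, rfl⟩ := Nat.exists_eq_add_of_le hnm
    rw [Nat.add_sub_cancel_left, emb_smul, map_pow, ← HahnSeries.C_mul_eq_smul, map_pow]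
    apply mul_left_cancel₀ (pow_ne_zero n hϖQ)
    rw [← mul_assoc (HahnSeries.C ((algebraMap A Q) ϖ) ^ n) (HahnSeries.C ((algebraMap A Q) ϖ) ^ k),
      ← pow_add, ← hab]
    ring
  · right
    obtain ⟨k, rfl⟩ := Nat.exists_eq_add_of_le hnm.le
    have hk : k ≠ 0 := by
      rintro rfl
      exact lt_irrefl _ hnm
    have hab' : x * (HahnSeries.C (algebraMap A Q ϖ) ^ k * emb A Q b') = emb A Q a' := by
      apply mul_left_cancel₀ (pow_ne_zero m hϖQ)
      rw [← hab, pow_add]
      ring
    have hinv : x⁻¹ * emb A Q a' = emb A Q (ϖ ^ k • b') := by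
      rw [← hab', ← mul_assoc, inv_mul_cancel₀ hx0, one_mul, emb_smul, map_pow,
        ← HahnSeries.C_mul_eq_smul, map_pow]
    have hmem : x⁻¹ ∈ gaussRing A Q := ⟨ϖ ^ k • b', a', ha', hinv⟩
    refine ⟨hmem, ?_⟩
    rw [gaussRed_eq ⟨x⁻¹, hmem⟩ ha' hinv]
    obtain ⟨k', rfl⟩ := Nat.exists_eq_succ_of_ne_zero hk
    rw [pow_succ, mul_comm, mul_smul, red_eq_zero_of_smul hϖ, zero_div]

/-- The Gauss ring is integrally closed in the Gauss field. -/
theorem mem_gaussRing_of_isIntegral {x : LaurentSeries Q} (hx : x ∈ gaussField A Q)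
    (hint : IsIntegral (gaussRing A Q) x) : x ∈ gaussRing A Q := by
  by_cases hx0 : x = 0
  · rw [hx0]; exact (gaussRing A Q).zero_mem
  rcases mem_gaussRing_or_inv hx hx0 with h | ⟨h, -⟩
  · exact h
  · exact mem_of_isIntegral_of_inv_mem _ hint h

end Fermat.Agent.S28.Gauss
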