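/-
S28 (Igusa), scheme-theoretic glue (block S28c).

* A topological space covered by open irreducible subsets all meeting a fixed one is irreducible.
* A scheme with an open cover by integral schemes whose images all meet a fixed one is integral.
* The base change of the Igusa model `IgusaScheme N ℓ` to a field `K` is integral as soon as
  `chartAlgFin ⊗ K` and `chartAlgInf ⊗ K` are domains and `chartAlgMid ⊗ K` is nontrivial.
-/
import Fermat.Statements.S28

set_option autoImplicit false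

open CategoryTheory CategoryTheory.Limits AlgebraicGeometry TensorProduct

namespace Fermat.Agent.S28

section Topology

variable {T : Type*} [TopologicalSpace T]

/-- If `U` is preirreducible and `V` is an open set meeting `U`, then `U ⊆ closure V`. -/
theorem subset_closure_of_isPreirreducible {U V : Set T} (hU : IsPreirreducible U)
    (hV : IsOpen V) (hUV : (U ∩ V).Nonempty) : U ⊆ closure V := by
  intro x hx
  rw [mem_closure_iff]
  intro W hW hxW
  obtain ⟨y, -, hyW, hyV⟩ := hU W V hW hV ⟨x, hx, hxW⟩ hUV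
  exact ⟨y, hyW, hyV⟩

/-- A space covered by open irreducible subsets which all meet a fixed one of them is
irreducible. -/
theorem irreducibleSpace_of_cover {ι : Type*} (U : ι → Set T) (hopen : ∀ i, IsOpen (U i))
    (hirr : ∀ i, IsIrreducible (U i)) (hcov : ∀ x, ∃ i, x ∈ U i) (i₀ : ι)
    (hmeet : ∀ i, (U i ∩ U i₀).Nonempty) : IrreducibleSpace T := by
  have hcl : closure (U i₀) = Set.univ := by
    rw [Set.eq_univ_iff_forall]
    intro x
    obtain ⟨i, hi⟩ := hcov x
    exact subset_closure_of_isPreirreducible (hirr i).isPreirreducible (hopen i₀) (hmeet i) hi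
  have h : IsIrreducible (Set.univ : Set T) := hcl ▸ (hirr i₀).closure
  exact (irreducibleSpace_def T).mpr h

end Topology

section Scheme

universe u

/-- A scheme with an open cover by integral schemes whose images all meet the image of a fixed
one of them is integral. -/
theorem isIntegral_of_openCover {X : Scheme.{u}} (𝒰 : X.OpenCover) [∀ i, IsIntegral (𝒰.X i)]
    (i₀ : 𝒰.I₀) (hmeet : ∀ i, (Set.range (𝒰.f i) ∩ Set.range (𝒰.f i₀)).Nonempty) :
    IsIntegral X := by
  rw [isIntegral_iff_irreducibleSpace_and_isReduced]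
  refine ⟨?_, IsReduced.of_openCover _ 𝒰⟩
  refine irreducibleSpace_of_cover (fun i => Set.range (𝒰.f i))
    (fun i => (𝒰.f i).isOpenEmbedding.isOpen_range) (fun i => ?_)
    (fun x => ?_) i₀ hmeet
  · have h := (IrreducibleSpace.isIrreducible_univ (𝒰.X i)).image (𝒰.f i)
      (𝒰.f i).continuous.continuousOn
    rwa [Set.image_univ] at h
  · obtain ⟨i, y, hy⟩ := 𝒰.exists_eq x
    exact ⟨i, y, hy⟩

/-- The same statement for an explicit family of charts. -/
theorem isIntegral_of_charts {X : Scheme.{u}} {J : Type} (obj : J → Scheme.{u})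
    (map : ∀ j, obj j ⟶ X) (hopen : ∀ j, IsOpenImmersion (map j)) (hint : ∀ j, IsIntegral (obj j))
    (covers : ∀ x, ∃ j y, map j y = x) (j₀ : J)
    (hmeet : ∀ j, (Set.range (map j) ∩ Set.range (map j₀)).Nonempty) : IsIntegral X := by
  let 𝒰 : X.OpenCover := Scheme.Cover.mkOfCovers J obj map covers hopen
  have : ∀ i, IsIntegral (𝒰.X i) := hint
  exact isIntegral_of_openCover 𝒰 j₀ hmeet

end Scheme

section Igusa

open ModularCurve ModularCurve.IgusaScheme

variable (N : ℕ) [NeZero N] (ℓ : ℕ) [Fact ℓ.Prime]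

/-- The two charts of the Igusa scheme. -/
noncomputable def chartX : Bool → Scheme.{0}
  | true => XFin N ℓ
  | false => XInf N ℓ

/-- The inclusions of the two charts of the Igusa scheme. -/
noncomputable def chartι : (b : Bool) → (chartX N ℓ b ⟶ IgusaScheme N ℓ)
  | true => ιFin N ℓ
  | false => ιInf N ℓ

instance isOpenImmersion_chartι (b : Bool) : IsOpenImmersion (chartι N ℓ b) := by
  cases b
  · exact isOpenImmersion_ιInf N ℓ
  · exact isOpenImmersion_ιFin N ℓ

theorem chartι_covers (x : IgusaScheme N ℓ) : ∃ b y, chartι N ℓ b y = x := by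
  rcases mem_range_ιFin_or_mem_range_ιInf N ℓ x with ⟨y, hy⟩ | ⟨y, hy⟩
  · exact ⟨true, y, hy⟩
  · exact ⟨false, y, hy⟩

/-- The two-chart open cover of the Igusa scheme. -/
noncomputable def igusaOpenCover : (IgusaScheme N ℓ).OpenCover :=
  Scheme.Cover.mkOfCovers Bool (chartX N ℓ) (chartι N ℓ) (chartι_covers N ℓ)
    (isOpenImmersion_chartι N ℓ)

variable (K : Type) [Field K] [Algebra ↥(GaloisRep.ratLocalizedAt ℓ) K]

/-- The structure morphism `Spec K ⟶ Spec ℤ_(ℓ)`. -/
noncomputable abbrev specK :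
    Spec (CommRingCat.of K) ⟶ Spec (CommRingCat.of ↥(GaloisRep.ratLocalizedAt ℓ)) :=
  Spec.map (CommRingCat.ofHom (algebraMap ↥(GaloisRep.ratLocalizedAt ℓ) K))

/-- The two charts of the fibre. -/
noncomputable abbrev fibreX (b : Bool) : Scheme.{0} :=
  pullback (chartι N ℓ b ≫ igusaTo N ℓ) (specK ℓ K)

/-- The inclusions of the two charts of the fibre. -/
noncomputable def fibreι (b : Bool) : fibreX N ℓ K b ⟶ pullback (igusaTo N ℓ) (specK ℓ K) :=
  pullback.map (chartι N ℓ b ≫ igusaTo N ℓ) (specK ℓ K) (igusaTo N ℓ) (specK ℓ K) (chartι N ℓ b)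
    (𝟙 _) (𝟙 _) (by simp) (by simp)

/-- The induced two-chart open cover of the fibre. -/
noncomputable def fibreCover : (pullback (igusaTo N ℓ) (specK ℓ K)).OpenCover :=
  Scheme.Pullback.openCoverOfLeft (igusaOpenCover N ℓ) (igusaTo N ℓ) (specK ℓ K)

instance isOpenImmersion_fibreι (b : Bool) : IsOpenImmersion (fibreι N ℓ K b) :=
  (fibreCover N ℓ K).map_prop b

theorem fibreι_covers (y : ↥(pullback (igusaTo N ℓ) (specK ℓ K))) :
    ∃ b z, fibreι N ℓ K b z = y := by
  obtain ⟨i, z, hz⟩ := (fibreCover N ℓ K).exists_eq y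
  exact ⟨i, z, hz⟩

@[reassoc]
theorem fibreι_fst (b : Bool) :
    fibreι N ℓ K b ≫ pullback.fst _ _ = pullback.fst _ _ ≫ chartι N ℓ b :=
  pullback.lift_fst _ _ _

@[reassoc]
theorem fibreι_snd (b : Bool) : fibreι N ℓ K b ≫ pullback.snd _ _ = pullback.snd _ _ :=
  (pullback.lift_snd _ _ _).trans (Category.comp_id _)

/-- The finite chart of the fibre is the spectrum of `chartAlgFin ⊗ K`. -/
noncomputable def fibreFinIso :
    fibreX N ℓ K true ≅
      Spec (CommRingCat.of (chartAlgFin N ℓ ⊗[↥(GaloisRep.ratLocalizedAt ℓ)] K)) :=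
  pullback.congrHom (ιFin_igusaTo N ℓ) rfl ≪≫
    pullbackSpecIso ↥(GaloisRep.ratLocalizedAt ℓ) (chartAlgFin N ℓ) K

/-- The infinite chart of the fibre is the spectrum of `chartAlgInf ⊗ K`. -/
noncomputable def fibreInfIso :
    fibreX N ℓ K false ≅
      Spec (CommRingCat.of (chartAlgInf N ℓ ⊗[↥(GaloisRep.ratLocalizedAt ℓ)] K)) :=
  pullback.congrHom (ιInf_igusaTo N ℓ) rfl ≪≫
    pullbackSpecIso ↥(GaloisRep.ratLocalizedAt ℓ) (chartAlgInf N ℓ) K

/-- The ring of the overlap of the two charts of the fibre. -/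
abbrev MidK : Type := chartAlgMid N ℓ ⊗[↥(GaloisRep.ratLocalizedAt ℓ)] K

/-- `Spec (chartAlgMid ⊗ K) ⟶ Spec chartAlgMid`. -/
noncomputable def midToX : Spec (CommRingCat.of (MidK N ℓ K)) ⟶ XMid N ℓ :=
  Spec.map (CommRingCat.ofHom
    (Algebra.TensorProduct.includeLeftRingHom :
      chartAlgMid N ℓ →+* chartAlgMid N ℓ ⊗[↥(GaloisRep.ratLocalizedAt ℓ)] K))

/-- `Spec (chartAlgMid ⊗ K) ⟶ Spec K`. -/
noncomputable def midToK : Spec (CommRingCat.of (MidK N ℓ K)) ⟶ Spec (CommRingCat.of K) :=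
  Spec.map (CommRingCat.ofHom
    ((Algebra.TensorProduct.includeRight :
      K →ₐ[↥(GaloisRep.ratLocalizedAt ℓ)]
        chartAlgMid N ℓ ⊗[↥(GaloisRep.ratLocalizedAt ℓ)] K) : K →+* MidK N ℓ K))

theorem midToX_fFin_toBase :
    (midToX N ℓ K ≫ fFin N ℓ) ≫ (chartι N ℓ true ≫ igusaTo N ℓ) =
      midToK N ℓ K ≫ specK ℓ K := by
  show (midToX N ℓ K ≫ fFin N ℓ) ≫ (ιFin N ℓ ≫ igusaTo N ℓ) = midToK N ℓ K ≫ specK ℓ K
  rw [ιFin_igusaTo]
  unfold midToX midToK specK
  simp only [← Spec.map_comp, ← CommRingCat.ofHom_comp]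
  congr 2
  ext a
  simp only [RingHom.comp_apply, AlgHom.toRingHom_eq_coe, RingHom.coe_coe,
    Algebra.TensorProduct.includeLeftRingHom_apply, Algebra.TensorProduct.includeRight_apply]
  rw [AlgHom.commutes, Algebra.algebraMap_eq_smul_one, Algebra.algebraMap_eq_smul_one (A := K),
    TensorProduct.smul_tmul]

theorem midToX_fInf_toBase :
    (midToX N ℓ K ≫ fInf N ℓ) ≫ (chartι N ℓ false ≫ igusaTo N ℓ) =
      midToK N ℓ K ≫ specK ℓ K := by
  show (midToX N ℓ K ≫ fInf N ℓ) ≫ (ιInf N ℓ ≫ igusaTo N ℓ) = midToK N ℓ K ≫ specK ℓ K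
  rw [ιInf_igusaTo]
  unfold midToX midToK specK
  simp only [← Spec.map_comp, ← CommRingCat.ofHom_comp]
  congr 2
  ext a
  simp only [RingHom.comp_apply, AlgHom.toRingHom_eq_coe, RingHom.coe_coe,
    Algebra.TensorProduct.includeLeftRingHom_apply, Algebra.TensorProduct.includeRight_apply]
  rw [AlgHom.commutes, Algebra.algebraMap_eq_smul_one, Algebra.algebraMap_eq_smul_one (A := K),
    TensorProduct.smul_tmul]

/-- The overlap maps to the finite chart of the fibre. -/
noncomputable def midToFin : Spec (CommRingCat.of (MidK N ℓ K)) ⟶ fibreX N ℓ K true :=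
  pullback.lift (midToX N ℓ K ≫ fFin N ℓ) (midToK N ℓ K) (midToX_fFin_toBase N ℓ K)

/-- The overlap maps to the infinite chart of the fibre. -/
noncomputable def midToInf : Spec (CommRingCat.of (MidK N ℓ K)) ⟶ fibreX N ℓ K false :=
  pullback.lift (midToX N ℓ K ≫ fInf N ℓ) (midToK N ℓ K) (midToX_fInf_toBase N ℓ K)

theorem midToFin_fst :
    midToFin N ℓ K ≫ pullback.fst (chartι N ℓ true ≫ igusaTo N ℓ) (specK ℓ K) =
      (midToX N ℓ K ≫ fFin N ℓ : _ ⟶ chartX N ℓ true) :=
  pullback.lift_fst _ _ _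

theorem midToInf_fst :
    midToInf N ℓ K ≫ pullback.fst (chartι N ℓ false ≫ igusaTo N ℓ) (specK ℓ K) =
      (midToX N ℓ K ≫ fInf N ℓ : _ ⟶ chartX N ℓ false) :=
  pullback.lift_fst _ _ _

theorem midToFin_snd :
    midToFin N ℓ K ≫ pullback.snd (chartι N ℓ true ≫ igusaTo N ℓ) (specK ℓ K) = midToK N ℓ K :=
  pullback.lift_snd _ _ _

theorem midToInf_snd :
    midToInf N ℓ K ≫ pullback.snd (chartι N ℓ false ≫ igusaTo N ℓ) (specK ℓ K) = midToK N ℓ K :=
  pullback.lift_snd _ _ _

theorem midToFin_ι_eq_midToInf_ι :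
    midToFin N ℓ K ≫ fibreι N ℓ K true = midToInf N ℓ K ≫ fibreι N ℓ K false := by
  apply pullback.hom_ext
  · rw [Category.assoc, Category.assoc, fibreι_fst, fibreι_fst, ← Category.assoc,
      ← Category.assoc, midToFin_fst, midToInf_fst]
    show (midToX N ℓ K ≫ fFin N ℓ) ≫ ιFin N ℓ = (midToX N ℓ K ≫ fInf N ℓ) ≫ ιInf N ℓ
    rw [Category.assoc, Category.assoc, glue_condition]
  · rw [Category.assoc, Category.assoc, fibreι_snd, fibreι_snd, midToFin_snd, midToInf_snd]

/-- **Scheme-theoretic glue for S28.** If `chartAlgFin ⊗ K` and `chartAlgInf ⊗ K` are domains and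
`chartAlgMid ⊗ K` is nontrivial, then the fibre of the Igusa model over `K` is integral. -/
theorem isIntegral_fibre
    (hFin : IsDomain (chartAlgFin N ℓ ⊗[↥(GaloisRep.ratLocalizedAt ℓ)] K))
    (hInf : IsDomain (chartAlgInf N ℓ ⊗[↥(GaloisRep.ratLocalizedAt ℓ)] K))
    (hMid : Nontrivial (chartAlgMid N ℓ ⊗[↥(GaloisRep.ratLocalizedAt ℓ)] K)) :
    IsIntegral ↑(pullback (igusaTo N ℓ) (specK ℓ K)) := by
  have hint : ∀ b, IsIntegral (fibreX N ℓ K b) := by
    intro b
    cases b
    · have : IsIntegral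
          (Spec (CommRingCat.of (chartAlgInf N ℓ ⊗[↥(GaloisRep.ratLocalizedAt ℓ)] K))) :=
        (affine_isIntegral_iff _).mpr hInf
      exact IsIntegral.of_isIso (fibreInfIso N ℓ K).inv
    · have : IsIntegral
          (Spec (CommRingCat.of (chartAlgFin N ℓ ⊗[↥(GaloisRep.ratLocalizedAt ℓ)] K))) :=
        (affine_isIntegral_iff _).mpr hFin
      exact IsIntegral.of_isIso (fibreFinIso N ℓ K).inv
  obtain ⟨pt⟩ : Nonempty (PrimeSpectrum (MidK N ℓ K)) := inferInstance
  let pt' : ↥(Spec (CommRingCat.of (MidK N ℓ K))) := pt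
  have hpt : (midToFin N ℓ K ≫ fibreι N ℓ K true) pt' ∈
      Set.range (fibreι N ℓ K false) ∩ Set.range (fibreι N ℓ K true) := by
    constructor
    · rw [midToFin_ι_eq_midToInf_ι]
      exact ⟨midToInf N ℓ K pt', rfl⟩
    · exact ⟨midToFin N ℓ K pt', rfl⟩
  refine isIntegral_of_charts (fibreX N ℓ K) (fibreι N ℓ K) (isOpenImmersion_fibreι N ℓ K) hint
    (fibreι_covers N ℓ K) true ?_
  intro b
  cases b
  · exact ⟨_, hpt⟩
  · exact ⟨_, hpt.2, hpt.2⟩

end Igusa

end Fermat.Agent.S28
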