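/-
S28 (Igusa), block S28b, part 2: `ℤ_(ℓ) = GaloisRep.ratLocalizedAt ℓ` is a discrete valuation ring
with fraction field `ℚ`, uniformizer `ℓ`, and every ring of characteristic `ℓ` which is an algebra
over it is an algebra over its residue field.
-/
import Mathlib
import Fermat.Prelude.Def_GaloisRep_Flat

set_option autoImplicit false
set_option linter.unusedSectionVars false

namespace Fermat.Agent.S28.LocalizedInt

variable (ℓ : ℕ) [hℓ : Fact ℓ.Prime]

set_option quotPrecheck false in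
local notation "ℤℓ" => ↥(GaloisRep.ratLocalizedAt ℓ)

theorem mem_ratLocalizedAt_iff (x : ℚ) : x ∈ GaloisRep.ratLocalizedAt ℓ ↔ x.den.Coprime ℓ :=
  Iff.rfl

theorem coprime_iff_not_dvd (n : ℕ) : n.Coprime ℓ ↔ ¬ ℓ ∣ n := by
  rw [Nat.coprime_comm]
  exact hℓ.out.coprime_iff_not_dvd

instance isPrime_span : (Ideal.span {(ℓ : ℤ)}).IsPrime :=
  (Ideal.span_singleton_prime (by exact_mod_cast hℓ.out.ne_zero)).mpr
    (Nat.prime_iff_prime_int.mp hℓ.out)

theorem algebraMap_int_coe (n : ℤ) : ((algebraMap ℤ ℤℓ n : ℤℓ) : ℚ) = (n : ℚ) := by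
  simp

instance isLocalization_atPrime : IsLocalization.AtPrime ℤℓ (Ideal.span {(ℓ : ℤ)}) where
  map_units := by
    rintro ⟨y, hy⟩
    have hy' : ¬ (ℓ : ℤ) ∣ y := by
      intro h
      exact hy (Ideal.mem_span_singleton.mpr h)
    have hy0 : y ≠ 0 := by
      rintro rfl
      exact hy' (dvd_zero _)
    have hmem : ((y : ℚ)⁻¹) ∈ GaloisRep.ratLocalizedAt ℓ := by
      rw [mem_ratLocalizedAt_iff, Rat.inv_intCast_den, if_neg hy0, coprime_iff_not_dvd]
      intro h
      exact hy' (Int.natCast_dvd.mpr h)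
    refine IsUnit.of_mul_eq_one ⟨(y : ℚ)⁻¹, hmem⟩ (Subtype.ext ?_)
    rw [Subring.coe_mul, algebraMap_int_coe, Subring.coe_one]
    exact mul_inv_cancel₀ (by exact_mod_cast hy0)
  surj := by
    intro z
    have hden : (z.1.den : ℤ) ∈ (Ideal.span {(ℓ : ℤ)}).primeCompl := by
      intro h
      have h1 : (z.1.den : ℤ) ∈ Ideal.span {(ℓ : ℤ)} := h
      rw [Ideal.mem_span_singleton] at h1
      have h' : ℓ ∣ z.1.den := by exact_mod_cast h1
      exact (coprime_iff_not_dvd ℓ _).mp z.2 h'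
    refine ⟨(z.1.num, ⟨(z.1.den : ℤ), hden⟩), Subtype.ext ?_⟩
    rw [Subring.coe_mul, algebraMap_int_coe, algebraMap_int_coe]
    push_cast
    exact Rat.mul_den_eq_num z.1
  exists_of_eq := by
    intro x y h
    refine ⟨1, ?_⟩
    have h' := congrArg (fun z : ℤℓ => (z : ℚ)) h
    simp only [algebraMap_int_coe] at h'
    have : x = y := by exact_mod_cast h'
    rw [this]

instance isDiscreteValuationRing : IsDiscreteValuationRing ℤℓ :=
  IsLocalization.AtPrime.isDiscreteValuationRing_of_dedekind_domain ℤ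
    (by
      intro h
      have h1 : (ℓ : ℤ) ∈ (⊥ : Ideal ℤ) := h ▸ Ideal.mem_span_singleton_self _
      rw [Ideal.mem_bot] at h1
      exact hℓ.out.ne_zero (by exact_mod_cast h1))
    ℤℓ

instance isFractionRing : IsFractionRing ℤℓ ℚ := by
  refine IsFractionRing.of_field ℤℓ ℚ fun z => ?_
  have hnum : (z.num : ℚ) ∈ GaloisRep.ratLocalizedAt ℓ := by
    rw [mem_ratLocalizedAt_iff, Rat.den_intCast]; exact Nat.coprime_one_left ℓ
  have hden : (z.den : ℚ) ∈ GaloisRep.ratLocalizedAt ℓ := by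
    rw [mem_ratLocalizedAt_iff, Rat.den_natCast]; exact Nat.coprime_one_left ℓ
  refine ⟨⟨_, hnum⟩, ⟨_, hden⟩, ?_⟩
  exact (Rat.num_div_den z).symm

/-- The maximal ideal of `ℤ_(ℓ)` is generated by `ℓ`. -/
theorem maximalIdeal_eq : IsLocalRing.maximalIdeal ℤℓ = Ideal.span {(ℓ : ℤℓ)} := by
  have h := IsLocalization.AtPrime.map_eq_maximalIdeal (Ideal.span {(ℓ : ℤ)}) ℤℓ
  rw [← h, Ideal.map_span, Set.image_singleton]
  congr 2

/-- `ℓ` is a uniformizer of `ℤ_(ℓ)`. -/
theorem irreducible_ell : Irreducible (ℓ : ℤℓ) :=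
  (IsDiscreteValuationRing.irreducible_iff_uniformizer _).mpr (maximalIdeal_eq ℓ)

section Residue

variable (K : Type*) [Field K] [CharP K ℓ] [Algebra ↥(GaloisRep.ratLocalizedAt ℓ) K]

theorem algebraMap_ell : algebraMap ℤℓ K (ℓ : ℤℓ) = 0 := by
  rw [map_natCast]
  exact CharP.cast_eq_zero K ℓ

theorem algebraMap_eq_zero_of_mem_maximalIdeal {a : ℤℓ} (ha : a ∈ IsLocalRing.maximalIdeal ℤℓ) :
    algebraMap ℤℓ K a = 0 := by
  rw [maximalIdeal_eq, Ideal.mem_span_singleton] at ha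
  obtain ⟨b, rfl⟩ := ha
  rw [map_mul, algebraMap_ell, zero_mul]

instance isLocalHom_algebraMap : IsLocalHom (algebraMap ℤℓ K) where
  map_nonunit a ha := by
    by_contra hna
    have hmem : a ∈ IsLocalRing.maximalIdeal ℤℓ := (IsLocalRing.mem_maximalIdeal a).mpr hna
    rw [algebraMap_eq_zero_of_mem_maximalIdeal ℓ K hmem] at ha
    exact not_isUnit_zero ha

/-- A field of characteristic `ℓ` which is a `ℤ_(ℓ)`-algebra is an algebra over the residue
field. -/
@[instance_reducible]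
noncomputable def residueAlgebra : Algebra (IsLocalRing.ResidueField ℤℓ) K :=
  (IsLocalRing.ResidueField.lift (algebraMap ℤℓ K)).toAlgebra

theorem residueAlgebra_algebraMap_residue (a : ℤℓ) :
    letI := residueAlgebra ℓ K
    algebraMap (IsLocalRing.ResidueField ℤℓ) K (IsLocalRing.residue ℤℓ a) = algebraMap ℤℓ K a :=
  IsLocalRing.ResidueField.lift_residue_apply _ a

end Residue

end Fermat.Agent.S28.LocalizedInt
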