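/-
S28 (Igusa), block S28b, part 3: the chart rings of the Igusa model inside the Gauss ring, and
their reduction to Laurent series over the residue field.
-/
import Fermat.Agent.S28.GaussRing
import Fermat.Agent.S28.LocalizedInt
import Fermat.Agent.S24.FFBasics
import Fermat.Prelude.Def_ModularCurve_IgusaScheme
import Fermat.Prelude.Thm_ModularCurve_coeff_jqModC_neg_one

set_option autoImplicit false
set_option linter.unusedSectionVars false

namespace Fermat.Agent.S28.Igusa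

open ModularCurve ModularCurve.IgusaScheme Fermat.Agent.S28.Gauss Fermat.Agent.S28.LocalizedInt

variable (N : ℕ) [NeZero N] (ℓ : ℕ) [hℓ : Fact ℓ.Prime]

set_option quotPrecheck false in
local notation "ℤℓ" => ↥(GaloisRep.ratLocalizedAt ℓ)

set_option quotPrecheck false in
local notation "kℓ" => IsLocalRing.ResidueField ↥(GaloisRep.ratLocalizedAt ℓ)

set_option quotPrecheck false in
local notation "F" => ↥(modularFunctionFieldFull N)

/-- `j(q^d)` with coefficients in `ℤ_(ℓ)`. -/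
noncomputable def jLam (d : ℕ) [NeZero d] : LaurentSeries ℤℓ := qExpand ℤℓ d (jqModC ℤℓ)

theorem coeffMap_jqModC {R S : Type*} [CommRing R] [CommRing S] (f : R →+* S) :
    coeffMap f (jqModC R) = jqModC S :=
  map_jqModC f

theorem emb_jLam (d : ℕ) [NeZero d] : emb ℤℓ ℚ (jLam ℓ d) = qExpand ℚ d jq := by
  unfold emb jLam
  rw [coeffMap_qExpand, coeffMap_jqModC, jqModC_rat]

theorem red_jLam (d : ℕ) [NeZero d] : red ℤℓ (jLam ℓ d) = jqNModC kℓ d := by
  unfold red jLam jqNModC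
  rw [coeffMap_qExpand, coeffMap_jqModC]

/-- The modular function field lies in the Gauss field. -/
theorem full_le_gaussField : modularFunctionFieldFull N ≤ gaussField ℤℓ ℚ := by
  rw [modularFunctionFieldFull, IntermediateField.adjoin_le_iff]
  rintro x ⟨d, hd, -, rfl⟩
  have := hd
  rw [← emb_jLam ℓ d]
  exact emb_mem_gaussField _

theorem coe_algebraMap (a : ℤℓ) :
    ((algebraMap ℤℓ F a : F) : LaurentSeries ℚ) = emb ℤℓ ℚ (HahnSeries.C a) := by
  have h0 : ((SubringClass.subtype (modularFunctionFieldFull N)).comp (algebraMap ℚ F)) =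
      algebraMap ℚ (LaurentSeries ℚ) := Subsingleton.elim _ _
  have h1 : ((algebraMap ℤℓ F a : F) : LaurentSeries ℚ) =
      algebraMap ℚ (LaurentSeries ℚ) (a : ℚ) :=
    congrArg (fun f : ℚ →+* LaurentSeries ℚ => f (a : ℚ)) h0
  rw [h1, algebraMap_laurentSeries_eq_single]
  exact (coeffMap_single (algebraMap ℤℓ ℚ) 0 a).symm

/-- The elements of the modular function field lying in the Gauss ring. -/
def gaussSubalgebra : Subalgebra ℤℓ F where
  carrier := {x | (x : LaurentSeries ℚ) ∈ gaussRing ℤℓ ℚ}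
  mul_mem' ha hb := (gaussRing ℤℓ ℚ).mul_mem ha hb
  one_mem' := (gaussRing ℤℓ ℚ).one_mem
  add_mem' ha hb := (gaussRing ℤℓ ℚ).add_mem ha hb
  zero_mem' := (gaussRing ℤℓ ℚ).zero_mem
  algebraMap_mem' a := by
    show ((algebraMap ℤℓ F a : F) : LaurentSeries ℚ) ∈ gaussRing ℤℓ ℚ
    rw [coe_algebraMap]
    exact emb_mem_gaussRing _

theorem mem_gaussSubalgebra_iff {x : F} :
    x ∈ gaussSubalgebra N ℓ ↔ (x : LaurentSeries ℚ) ∈ gaussRing ℤℓ ℚ := Iff.rfl

/-- The inclusion of `gaussSubalgebra` into the Gauss ring. -/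
def toGaussRing : gaussSubalgebra N ℓ →+* gaussRing ℤℓ ℚ where
  toFun x := ⟨((x : F) : LaurentSeries ℚ), x.2⟩
  map_one' := rfl
  map_mul' _ _ := rfl
  map_zero' := rfl
  map_add' _ _ := rfl

/-- A chart algebra generated by elements of the Gauss ring lies in the Gauss ring. -/
theorem chartAlg_le_gaussSubalgebra {S : Set F} (hS : S ⊆ (gaussSubalgebra N ℓ : Set F)) :
    chartAlg N ℓ S ≤ gaussSubalgebra N ℓ := by
  intro x hx
  rw [mem_chartAlg_iff] at hx
  have hadj : Algebra.adjoin ℤℓ S ≤ gaussSubalgebra N ℓ := Algebra.adjoin_le hS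
  rw [mem_gaussSubalgebra_iff]
  apply mem_gaussRing_of_isIntegral (full_le_gaussField N ℓ x.2)
  let φ : ↥(Algebra.adjoin ℤℓ S) →+* gaussRing ℤℓ ℚ :=
    (toGaussRing N ℓ).comp (Subalgebra.inclusion hadj).toRingHom
  exact hx.map_of_comp_eq φ (SubringClass.subtype (modularFunctionFieldFull N)) (by ext; rfl)

theorem emb_jqModC : emb ℤℓ ℚ (jqModC ℤℓ) = jq := by
  unfold emb
  rw [coeffMap_jqModC, jqModC_rat]

theorem red_jqModC : red ℤℓ (jqModC ℤℓ) = jqModC kℓ := by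
  unfold red
  rw [coeffMap_jqModC]

theorem jqModC_ne_zero (k : Type*) [Field k] : jqModC k ≠ 0 := by
  intro h
  have h1 := coeff_jqModC_neg_one k
  rw [h, HahnSeries.coeff_zero] at h1
  exact zero_ne_one h1

theorem jFull_mem_gaussSubalgebra : jFull N ∈ gaussSubalgebra N ℓ := by
  rw [mem_gaussSubalgebra_iff, coe_jFull, ← emb_jqModC ℓ]
  exact emb_mem_gaussRing _

theorem jq_mem_gaussRing : jq ∈ gaussRing ℤℓ ℚ := by
  rw [← emb_jqModC ℓ]
  exact emb_mem_gaussRing _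

theorem gaussRed_jq : gaussRed (⟨jq, jq_mem_gaussRing ℓ⟩ : gaussRing ℤℓ ℚ) = jqModC kℓ := by
  have h := gaussRed_emb (A := ℤℓ) (Q := ℚ) (jqModC ℤℓ)
  rw [red_jqModC] at h
  rw [← h]
  congr 1
  exact Subtype.ext (emb_jqModC ℓ).symm

theorem jFull_inv_mem_gaussSubalgebra : (jFull N)⁻¹ ∈ gaussSubalgebra N ℓ := by
  rw [mem_gaussSubalgebra_iff]
  have h : (((jFull N)⁻¹ : F) : LaurentSeries ℚ) = jq⁻¹ := by
    rw [IntermediateField.coe_inv, coe_jFull]
  rw [h]
  have hne : gaussRed (⟨jq, jq_mem_gaussRing ℓ⟩ : gaussRing ℤℓ ℚ) ≠ 0 := by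
    rw [gaussRed_jq]
    exact jqModC_ne_zero _
  have h' := inv_mem_gaussRing_of_gaussRed_ne_zero hne
  convert h'

/-- The reduction map on a chart algebra generated by elements of the Gauss ring. -/
noncomputable def rho {S : Set F} (hS : S ⊆ (gaussSubalgebra N ℓ : Set F)) :
    chartAlg N ℓ S →+* LaurentSeries kℓ :=
  (gaussRed (A := ℤℓ) (Q := ℚ)).comp
    ((toGaussRing N ℓ).comp
      (Subalgebra.inclusion (chartAlg_le_gaussSubalgebra N ℓ hS)).toRingHom)

theorem rho_apply {S : Set F} (hS : S ⊆ (gaussSubalgebra N ℓ : Set F)) (x : chartAlg N ℓ S) :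
    rho N ℓ hS x =
      gaussRed (⟨((x : F) : LaurentSeries ℚ), chartAlg_le_gaussSubalgebra N ℓ hS x.2⟩ :
        gaussRing ℤℓ ℚ) := rfl

theorem rho_algebraMap {S : Set F} (hS : S ⊆ (gaussSubalgebra N ℓ : Set F)) (a : ℤℓ) :
    rho N ℓ hS (algebraMap ℤℓ (chartAlg N ℓ S) a) = HahnSeries.C (IsLocalRing.residue ℤℓ a) := by
  rw [rho_apply]
  have h := gaussRed_emb (A := ℤℓ) (Q := ℚ) (HahnSeries.C a)
  have h2 : red ℤℓ (HahnSeries.C a) = HahnSeries.C (IsLocalRing.residue ℤℓ a) :=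
    coeffMap_single (IsLocalRing.residue ℤℓ) 0 a
  rw [h2] at h
  rw [← h]
  congr 1
  exact Subtype.ext (coe_algebraMap N ℓ a)

/-- The reduction map on the whole of `gaussSubalgebra`. -/
noncomputable def theta : gaussSubalgebra N ℓ →+* LaurentSeries kℓ :=
  (gaussRed (A := ℤℓ) (Q := ℚ)).comp (toGaussRing N ℓ)

theorem rho_eq_theta {S : Set F} (hS : S ⊆ (gaussSubalgebra N ℓ : Set F)) (x : chartAlg N ℓ S) :
    rho N ℓ hS x = theta N ℓ ⟨x, chartAlg_le_gaussSubalgebra N ℓ hS x.2⟩ := rfl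

theorem theta_algebraMap (a : ℤℓ) :
    theta N ℓ (algebraMap ℤℓ (gaussSubalgebra N ℓ) a) =
      HahnSeries.C (IsLocalRing.residue ℤℓ a) := by
  have h := gaussRed_emb (A := ℤℓ) (Q := ℚ) (HahnSeries.C a)
  have h2 : red ℤℓ (HahnSeries.C a) = HahnSeries.C (IsLocalRing.residue ℤℓ a) :=
    coeffMap_single (IsLocalRing.residue ℤℓ) 0 a
  rw [h2] at h
  rw [← h]
  show gaussRed _ = gaussRed _
  congr 1
  exact Subtype.ext (coe_algebraMap N ℓ a)

theorem theta_jFull :
    theta N ℓ ⟨jFull N, jFull_mem_gaussSubalgebra N ℓ⟩ = jqModC kℓ := by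
  rw [← gaussRed_jq ℓ]
  rfl

theorem theta_jFull_inv :
    theta N ℓ ⟨(jFull N)⁻¹, jFull_inv_mem_gaussSubalgebra N ℓ⟩ = (jqModC kℓ)⁻¹ := by
  apply eq_inv_of_mul_eq_one_left
  rw [← theta_jFull N ℓ, ← map_mul]
  have h : (⟨(jFull N)⁻¹, jFull_inv_mem_gaussSubalgebra N ℓ⟩ : gaussSubalgebra N ℓ) *
      ⟨jFull N, jFull_mem_gaussSubalgebra N ℓ⟩ = 1 :=
    Subtype.ext (inv_mul_cancel₀ (jFull_ne_zero N))
  rw [h, map_one]

/-- The reduction of `aeval s P` is `aeval s̄ P̄`. -/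
theorem theta_aeval (s : gaussSubalgebra N ℓ) (P : Polynomial ℤℓ) :
    theta N ℓ (Polynomial.aeval s P) =
      Polynomial.aeval (theta N ℓ s) (P.map (IsLocalRing.residue ℤℓ)) := by
  rw [Polynomial.aeval_def, Polynomial.hom_eval₂, Polynomial.aeval_def, Polynomial.eval₂_map]
  congr 1
  ext a : 1
  rw [RingHom.comp_apply, RingHom.comp_apply, theta_algebraMap,
    algebraMap_laurentSeries_eq_single]
  rfl

/-- If the reduction of `s` is transcendental over the residue field, an element of `ℤ_(ℓ)[s]` with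
zero reduction is divisible by `ℓ` in `ℤ_(ℓ)[s]`. -/
theorem exists_eq_ell_mul_of_theta_eq_zero (s : gaussSubalgebra N ℓ)
    (hs : Transcendental kℓ (theta N ℓ s)) (P : Polynomial ℤℓ)
    (h : theta N ℓ (Polynomial.aeval s P) = 0) :
    ∃ P' : Polynomial ℤℓ, P = Polynomial.C (ℓ : ℤℓ) * P' := by
  rw [theta_aeval] at h
  have h0 : P.map (IsLocalRing.residue ℤℓ) = 0 := by
    by_contra hne
    exact (transcendental_iff.mp hs) _ h |> hne
  have hdvd : Polynomial.C (ℓ : ℤℓ) ∣ P := by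
    rw [Polynomial.C_dvd_iff_dvd_coeff]
    intro i
    have hi : IsLocalRing.residue ℤℓ (P.coeff i) = 0 := by
      rw [← Polynomial.coeff_map, h0, Polynomial.coeff_zero]
    rw [IsLocalRing.residue_eq_zero_iff, maximalIdeal_eq, Ideal.mem_span_singleton] at hi
    exact hi
  exact hdvd

theorem residue_ell : IsLocalRing.residue ℤℓ (ℓ : ℤℓ) = 0 := by
  rw [IsLocalRing.residue_eq_zero_iff, maximalIdeal_eq]
  exact Ideal.mem_span_singleton_self _

/-- **The kernel of the reduction map.** If `ℓ` generates a prime ideal of the chart algebra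
`chartAlg N ℓ {s}` and the reduction of `s` is transcendental, the kernel of the reduction map is
generated by `ℓ`. -/
theorem ker_rho_eq {s : F} (hs : s ∈ gaussSubalgebra N ℓ)
    (htr : Transcendental kℓ (theta N ℓ ⟨s, hs⟩))
    (hprime : (Ideal.span {algebraMap ℤℓ (chartAlg N ℓ {s}) (ℓ : ℤℓ)}).IsPrime) :
    RingHom.ker (rho N ℓ (S := {s}) (Set.singleton_subset_iff.mpr hs)) =
      Ideal.span {algebraMap ℤℓ (chartAlg N ℓ {s}) (ℓ : ℤℓ)} := by
  set hS : ({s} : Set F) ⊆ (gaussSubalgebra N ℓ : Set F) := Set.singleton_subset_iff.mpr hs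
  set 𝔮 : Ideal (chartAlg N ℓ {s}) := Ideal.span {algebraMap ℤℓ (chartAlg N ℓ {s}) (ℓ : ℤℓ)}
    with h𝔮
  have le₁ : 𝔮 ≤ RingHom.ker (rho N ℓ hS) := by
    rw [h𝔮, Ideal.span_le, Set.singleton_subset_iff]
    show rho N ℓ hS _ = 0
    rw [rho_algebraMap, residue_ell, map_zero]
  refine le_antisymm ?_ le₁
  by_contra hnot
  obtain ⟨x, hxker, hxq⟩ := SetLike.not_le_iff_exists.mp hnot
  let f : ↥(Algebra.adjoin ℤℓ ({s} : Set F)) →+* ↥(chartAlg N ℓ {s}) :=
    (Subalgebra.inclusion (adjoin_le_chartAlg N ℓ {s})).toRingHom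
  obtain ⟨p, hp, hpx⟩ := (mem_chartAlg_iff N ℓ).mp x.2
  have hpx' : p.eval₂ f x = 0 := by
    apply Subtype.ext
    have h1 := Polynomial.hom_eval₂ p f (SubringClass.subtype (chartAlg N ℓ {s})) x
    exact h1.trans hpx
  have : (𝔮.comap f).IsPrime := Ideal.IsPrime.comap f
  have hp0 : p.map (Ideal.Quotient.mk (𝔮.comap f)) ≠ 0 := Polynomial.map_monic_ne_zero hp
  have hlt := Ideal.comap_lt_comap_of_root_mem_sdiff (f := f) le₁ ⟨hxker, hxq⟩ hp0
    (by rw [hpx']; exact 𝔮.zero_mem)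
  obtain ⟨b, hbker, hbq⟩ := SetLike.exists_of_lt hlt
  apply hbq
  have hbmem : (b : F) ∈ (Polynomial.aeval (R := ℤℓ) s).range := by
    rw [← Algebra.adjoin_singleton_eq_range_aeval]
    exact b.2
  obtain ⟨P, hP⟩ := hbmem
  replace hP : Polynomial.aeval s P = (b : F) := hP
  have hθ : theta N ℓ (Polynomial.aeval (⟨s, hs⟩ : gaussSubalgebra N ℓ) P) = 0 := by
    have h1 : rho N ℓ hS (f b) = 0 := hbker
    rw [rho_eq_theta] at h1
    rw [← h1]
    congr 1
    apply Subtype.ext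
    rw [Polynomial.aeval_subalgebra_coe]
    exact hP
  obtain ⟨P', rfl⟩ := exists_eq_ell_mul_of_theta_eq_zero N ℓ ⟨s, hs⟩ htr P hθ
  have hb' : Polynomial.aeval s P' ∈ Algebra.adjoin ℤℓ ({s} : Set F) := by
    rw [Algebra.adjoin_singleton_eq_range_aeval]
    exact ⟨P', rfl⟩
  have hfb : f b = algebraMap ℤℓ (chartAlg N ℓ {s}) (ℓ : ℤℓ) * f ⟨_, hb'⟩ := by
    apply Subtype.ext
    show (b : F) = algebraMap ℤℓ F (ℓ : ℤℓ) * Polynomial.aeval s P'
    rw [← hP, map_mul, Polynomial.aeval_C]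
  show f b ∈ 𝔮
  rw [hfb]
  exact Ideal.mul_mem_right _ _ (Ideal.mem_span_singleton_self _)

end Fermat.Agent.S28.Igusa
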