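/-
S28 (Igusa), block S28b, part 4: a criterion for `R ⊗[A] K` to be a domain.

Let `A → k` be a surjection onto a field, `K` a field extension of `k` (and an `A`-algebra through
`k`), `R` an `A`-algebra with a ring homomorphism `ρ : R → k((q))` over `A → k` whose kernel
consists of multiples of elements of `A` that vanish in `K`. Then
`R ⊗[A] K → K((q)), r ⊗ c ↦ ρ(r)·c` is injective; in particular `R ⊗[A] K` is a domain.
-/
import Mathlib
import Fermat.Prelude.Def_ModularCurve_LaurentCoeff

set_option autoImplicit false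
set_option linter.unusedSectionVars false

open ModularCurve TensorProduct

namespace Fermat.Agent.S28.TensorDomain

variable {A k R K : Type*} [CommRing A] [Field k] [Algebra A k] [CommRing R] [Algebra A R]
  [Field K] [Algebra A K] [Algebra k K] [IsScalarTower A k K]

/-- `K((q))` as an `A`-algebra through the constants. -/
@[instance_reducible]
noncomputable def laurentAlgebra (A K : Type*) [CommRing A] [Field K] [Algebra A K] :
    Algebra A (LaurentSeries K) :=
  ((HahnSeries.C : K →+* LaurentSeries K).comp (algebraMap A K)).toAlgebra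

attribute [local instance] laurentAlgebra

theorem laurentAlgebra_algebraMap (a : A) :
    algebraMap A (LaurentSeries K) a = HahnSeries.C (algebraMap A K a) := rfl

variable (K) in
/-- The first factor `R → K((q))`. -/
noncomputable def fstHom (ρ : R →+* LaurentSeries k)
    (hρ : ∀ a, ρ (algebraMap A R a) = HahnSeries.C (algebraMap A k a)) :
    R →ₐ[A] LaurentSeries K :=
  { (coeffMap (algebraMap k K)).comp ρ with
    commutes' := fun a => by
      show coeffMap (algebraMap k K) (ρ (algebraMap A R a)) = _
      rw [hρ, laurentAlgebra_algebraMap, IsScalarTower.algebraMap_apply A k K]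
      exact coeffMap_single _ _ _ }

variable (A K) in
/-- The second factor `K → K((q))`. -/
noncomputable def sndHom : K →ₐ[A] LaurentSeries K :=
  { (HahnSeries.C : K →+* LaurentSeries K) with
    commutes' := fun _ => rfl }

variable (K) in
/-- The map `R ⊗[A] K → K((q))`. -/
noncomputable def tensorToLaurent (ρ : R →+* LaurentSeries k)
    (hρ : ∀ a, ρ (algebraMap A R a) = HahnSeries.C (algebraMap A k a)) :
    R ⊗[A] K →ₐ[A] LaurentSeries K :=
  Algebra.TensorProduct.productMap (fstHom K ρ hρ) (sndHom A K)

theorem tensorToLaurent_tmul (ρ : R →+* LaurentSeries k)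
    (hρ : ∀ a, ρ (algebraMap A R a) = HahnSeries.C (algebraMap A k a)) (r : R) (c : K) :
    tensorToLaurent K ρ hρ (r ⊗ₜ c) = coeffMap (algebraMap k K) (ρ r) * HahnSeries.C c := by
  unfold tensorToLaurent
  rw [Algebra.TensorProduct.productMap_apply_tmul]
  rfl

section Normal

variable {ι : Type*} (b : Module.Basis ι k K)

/-- The map `(ι →₀ R) → R ⊗[A] K`, `f ↦ ∑ f i ⊗ b i`. -/
noncomputable def fromFinsupp : (ι →₀ R) →ₗ[A] R ⊗[A] K :=
  Finsupp.lsum A fun i => (TensorProduct.mk A R K).flip (b i)

theorem fromFinsupp_apply (f : ι →₀ R) :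
    fromFinsupp (A := A) b f = f.sum fun i r => r ⊗ₜ[A] b i := by
  unfold fromFinsupp
  rw [Finsupp.lsum_apply]
  rfl

theorem fromFinsupp_single (i : ι) (r : R) :
    fromFinsupp (A := A) b (Finsupp.single i r) = r ⊗ₜ[A] b i := by
  rw [fromFinsupp_apply, Finsupp.sum_single_index]
  exact TensorProduct.zero_tmul _ _

/-- Every element of `R ⊗[A] K` is of the form `∑ f i ⊗ b i`. -/
theorem fromFinsupp_surjective (hsurj : Function.Surjective (algebraMap A k)) :
    Function.Surjective (fromFinsupp (A := A) (R := R) b) := by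
  rw [← LinearMap.range_eq_top, eq_top_iff, ← TensorProduct.span_tmul_eq_top, Submodule.span_le]
  rintro _ ⟨r, c, rfl⟩
  -- `c = ∑ (b.repr c i) • b i`
  have hc : c = ∑ i ∈ (b.repr c).support, (b.repr c i) • b i := by
    conv_lhs => rw [← b.linearCombination_repr c]
    rw [Finsupp.linearCombination_apply, Finsupp.sum]
  choose lift hlift using hsurj
  have key : r ⊗ₜ[A] c =
      fromFinsupp (A := A) b (∑ i ∈ (b.repr c).support,
        Finsupp.single i (lift (b.repr c i) • r)) := by
    rw [map_sum]
    conv_lhs => rw [hc, TensorProduct.tmul_sum]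
    apply Finset.sum_congr rfl
    intro i _
    rw [fromFinsupp_single, TensorProduct.smul_tmul, ← algebraMap_smul k (lift (b.repr c i)) (b i),
      hlift]
  rw [key]
  exact LinearMap.mem_range_self _ _

theorem tensorToLaurent_fromFinsupp (ρ : R →+* LaurentSeries k)
    (hρ : ∀ a, ρ (algebraMap A R a) = HahnSeries.C (algebraMap A k a)) (f : ι →₀ R) :
    tensorToLaurent K ρ hρ (fromFinsupp (A := A) b f) =
      ∑ i ∈ f.support, coeffMap (algebraMap k K) (ρ (f i)) * HahnSeries.C (b i) := by
  rw [fromFinsupp_apply, Finsupp.sum, map_sum]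
  apply Finset.sum_congr rfl
  intro i _
  rw [tensorToLaurent_tmul]

/-- Coefficientwise linear independence. -/
theorem forall_eq_zero_of_sum_eq_zero (s : Finset ι) (y : ι → LaurentSeries k)
    (h : ∑ i ∈ s, coeffMap (algebraMap k K) (y i) * HahnSeries.C (b i) = 0) :
    ∀ i ∈ s, y i = 0 := by
  intro i hi
  ext n
  rw [HahnSeries.coeff_zero]
  have hn := congrArg (fun x : LaurentSeries K => x.coeff n) h
  simp only [HahnSeries.coeff_sum, HahnSeries.coeff_zero] at hn
  have hn' : ∑ j ∈ s, ((y j).coeff n) • b j = 0 := by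
    rw [← hn]
    apply Finset.sum_congr rfl
    intro j _
    rw [mul_comm, HahnSeries.C_mul_eq_smul, HahnSeries.coeff_smul, coeffMap_coeff, smul_eq_mul,
      Algebra.smul_def, mul_comm]
  exact linearIndependent_iff'.mp b.linearIndependent s (fun j => (y j).coeff n) hn' i hi

include b in
/-- **Injectivity of `R ⊗[A] K → K((q))`.** -/
theorem tensorToLaurent_injective (hsurj : Function.Surjective (algebraMap A k))
    (ρ : R →+* LaurentSeries k)
    (hρ : ∀ a, ρ (algebraMap A R a) = HahnSeries.C (algebraMap A k a))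
    (hker : ∀ r : R, ρ r = 0 → ∃ (ϖ : A) (r' : R), algebraMap A K ϖ = 0 ∧ r = ϖ • r') :
    Function.Injective (tensorToLaurent K ρ hρ) := by
  rw [injective_iff_map_eq_zero]
  intro t ht
  obtain ⟨f, rfl⟩ := fromFinsupp_surjective (A := A) (R := R) b hsurj t
  rw [tensorToLaurent_fromFinsupp] at ht
  have h0 := forall_eq_zero_of_sum_eq_zero b f.support (fun i => ρ (f i)) ht
  rw [fromFinsupp_apply, Finsupp.sum]
  apply Finset.sum_eq_zero
  intro i hi
  obtain ⟨ϖ, r', hϖ, hr⟩ := hker (f i) (h0 i hi)
  rw [hr, TensorProduct.smul_tmul, Algebra.smul_def, hϖ, zero_mul, TensorProduct.tmul_zero]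

end Normal

section Domain

/-- `R ⊗[A] K` is a domain under the hypotheses of `tensorToLaurent_injective`. -/
theorem isDomain_tensor (hsurj : Function.Surjective (algebraMap A k))
    (ρ : R →+* LaurentSeries k)
    (hρ : ∀ a, ρ (algebraMap A R a) = HahnSeries.C (algebraMap A k a))
    (hker : ∀ r : R, ρ r = 0 → ∃ (ϖ : A) (r' : R), algebraMap A K ϖ = 0 ∧ r = ϖ • r') :
    IsDomain (R ⊗[A] K) :=
  Function.Injective.isDomain (tensorToLaurent K ρ hρ).toRingHom
    (tensorToLaurent_injective (Module.Basis.ofVectorSpace k K) hsurj ρ hρ hker)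

/-- `R ⊗[A] K` is nontrivial as soon as there is a reduction map. -/
theorem nontrivial_tensor (ρ : R →+* LaurentSeries k)
    (hρ : ∀ a, ρ (algebraMap A R a) = HahnSeries.C (algebraMap A k a)) :
    Nontrivial (R ⊗[A] K) :=
  RingHom.domain_nontrivial (tensorToLaurent K ρ hρ).toRingHom

end Domain

end Fermat.Agent.S28.TensorDomain
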