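/-
S28 (Igusa), block S28b, assembly: S28 is reduced to the primality of `ℓ` in the two chart algebras
`chartAlgFin N ℓ` and `chartAlgInf N ℓ` of the Igusa model.
-/
import Fermat.Agent.S28.Glue
import Fermat.Agent.S28.IgusaRing
import Fermat.Agent.S28.TensorDomain

set_option autoImplicit false
set_option linter.unusedSectionVars false
set_option linter.style.haveILetI false

open CategoryTheory CategoryTheory.Limits AlgebraicGeometry TensorProduct

namespace Fermat.Agent.S28

open ModularCurve ModularCurve.IgusaScheme Fermat.Agent.S28.Gauss Fermat.Agent.S28.LocalizedInt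
  Fermat.Agent.S28.Igusa Fermat.Agent.S28.TensorDomain

variable (N : ℕ) [NeZero N] (ℓ : ℕ) [hℓ : Fact ℓ.Prime]

set_option quotPrecheck false in
local notation "ℤℓ" => ↥(GaloisRep.ratLocalizedAt ℓ)

set_option quotPrecheck false in
local notation "kℓ" => IsLocalRing.ResidueField ↥(GaloisRep.ratLocalizedAt ℓ)

set_option quotPrecheck false in
local notation "F" => ↥(modularFunctionFieldFull N)

/-- `ℓ` generates a prime ideal of the finite chart algebra of the Igusa model. -/
def PrimeFin : Prop :=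
  (Ideal.span {algebraMap ℤℓ (chartAlgFin N ℓ) (ℓ : ℤℓ)}).IsPrime

/-- `ℓ` generates a prime ideal of the infinite chart algebra of the Igusa model. -/
def PrimeInf : Prop :=
  (Ideal.span {algebraMap ℤℓ (chartAlgInf N ℓ) (ℓ : ℤℓ)}).IsPrime

section

variable (K : Type) [Field K] [CharP K ℓ] [Algebra ↥(GaloisRep.ratLocalizedAt ℓ) K]

theorem isScalarTower_residue :
    letI := residueAlgebra ℓ K
    IsScalarTower ℤℓ kℓ K := by
  letI := residueAlgebra ℓ K
  exact IsScalarTower.of_algebraMap_eq fun a => (residueAlgebra_algebraMap_residue ℓ K a).symm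

/-- The tensor product of a one-generator chart algebra with `K` is a domain, as soon as `ℓ`
generates a prime ideal and the generator has transcendental reduction. -/
theorem isDomain_chartAlg_tensor {s : F} (hs : s ∈ gaussSubalgebra N ℓ)
    (htr : Transcendental kℓ (theta N ℓ ⟨s, hs⟩))
    (hprime : (Ideal.span {algebraMap ℤℓ (chartAlg N ℓ {s}) (ℓ : ℤℓ)}).IsPrime) :
    IsDomain (chartAlg N ℓ {s} ⊗[ℤℓ] K) := by
  letI := residueAlgebra ℓ K
  haveI := isScalarTower_residue ℓ K
  refine isDomain_tensor (k := kℓ) IsLocalRing.residue_surjective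
    (rho N ℓ (S := {s}) (Set.singleton_subset_iff.mpr hs)) (rho_algebraMap N ℓ _) ?_
  intro r hr
  have hmem : r ∈ RingHom.ker (rho N ℓ (S := {s}) (Set.singleton_subset_iff.mpr hs)) := hr
  rw [ker_rho_eq N ℓ hs htr hprime, Ideal.mem_span_singleton] at hmem
  obtain ⟨r', rfl⟩ := hmem
  exact ⟨(ℓ : ℤℓ), r', algebraMap_ell ℓ K, (Algebra.smul_def _ _).symm⟩

theorem isDomain_fin (h : PrimeFin N ℓ) : IsDomain (chartAlgFin N ℓ ⊗[ℤℓ] K) := by
  refine isDomain_chartAlg_tensor N ℓ K (jFull_mem_gaussSubalgebra N ℓ) ?_ h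
  rw [theta_jFull]
  exact Fermat.Agent.S24.FFBasics.transcendental_jqModC _

theorem isDomain_inf (h : PrimeInf N ℓ) : IsDomain (chartAlgInf N ℓ ⊗[ℤℓ] K) := by
  refine isDomain_chartAlg_tensor N ℓ K (jFull_inv_mem_gaussSubalgebra N ℓ) ?_ h
  rw [theta_jFull_inv]
  intro halg
  exact Fermat.Agent.S24.FFBasics.transcendental_jqModC _ (IsAlgebraic.inv_iff.mp halg)

theorem nontrivial_mid : Nontrivial (chartAlgMid N ℓ ⊗[ℤℓ] K) := by
  letI := residueAlgebra ℓ K
  haveI := isScalarTower_residue ℓ K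
  have hS : ({jFull N, (jFull N)⁻¹} : Set F) ⊆ (gaussSubalgebra N ℓ : Set F) := by
    rintro x (rfl | rfl)
    · exact jFull_mem_gaussSubalgebra N ℓ
    · exact jFull_inv_mem_gaussSubalgebra N ℓ
  exact nontrivial_tensor (k := kℓ) (rho N ℓ hS) (rho_algebraMap N ℓ hS)

/-- **S28 from the primality of `ℓ` in the two chart algebras.** -/
theorem isIntegral_of_prime (hFin : PrimeFin N ℓ) (hInf : PrimeInf N ℓ) :
    IsIntegral ↑(pullback (igusaTo N ℓ)
      (Spec.map (CommRingCat.ofHom (algebraMap ↥(GaloisRep.ratLocalizedAt ℓ) K)))) :=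
  isIntegral_fibre N ℓ K (isDomain_fin N ℓ K hFin) (isDomain_inf N ℓ K hInf) (nontrivial_mid N ℓ K)

end

end Fermat.Agent.S28
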