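/-
S28 from the N4 interface: the frozen S28 conclusion follows from `Setting.StarTarget` (the deliverable
of block S28a), or from the primality of the two fibre ideals of the Setting over `(ℚ, ℤ_(ℓ))`.

The only content is a bridge between the chart algebras of the N4 `Setting` for
`(K, O) = (ℚ, GaloisRep.ratLocalizedAt ℓ)` and the frozen `chartAlgFin/Inf N ℓ`: they are the same
subsets of the same field, but subalgebras with respect to two different (propositionally equal)
algebra structures `ℤ_(ℓ) → F`; we transport along the equality of the two structures.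
-/
import Fermat.Agent.S28.Reduce
import Fermat.Agent.N4.Setting

set_option autoImplicit false
set_option linter.unusedSectionVars false
set_option linter.style.haveILetI false

namespace Fermat.Agent.S28.FromStar

open ModularCurve Fermat.Agent.S28.LocalizedInt
open Fermat.Agent.N4 Fermat.Agent.N4.Setting

section Generic

variable (K : Type) [Field K] (N : ℕ) (O : Subring K)

/-- The algebra structure of the N4 setting on the function field (named, because for `K = ℚ`
instance resolution would find a different, propositionally equal one). -/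
@[reducible] noncomputable def baseAlgebra : Algebra ↥O (FF K N) := inferInstance

theorem Rfin_eq : Rfin K N O = @Chart.chartAlg ↥O (FF K N) _ _ (baseAlgebra K N O) {jF K N} := by
  with_reducible rfl

/-- Primality of the special fibre of the chart `S`, for an arbitrary algebra structure. -/
def FibrePrime [IsLocalRing ↥O] (S : Set (FF K N)) (inst : Algebra ↥O (FF K N)) : Prop :=
  letI := inst
  ((IsLocalRing.maximalIdeal ↥O).map (algebraMap ↥O (Chart.chartAlg ↥O (FF K N) S))).IsPrime

theorem fibrePrime_iff [IsLocalRing ↥O] (S : Set (FF K N)) :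
    FibrePrime K N O S (baseAlgebra K N O) ↔
      (fibreIdeal K N O (Chart.chartAlg ↥O (FF K N) S)).IsPrime := Iff.rfl

variable {K N O} in
theorem FibrePrime.congr [IsLocalRing ↥O] {S : Set (FF K N)} {i₁ i₂ : Algebra ↥O (FF K N)}
    (h₁ : FibrePrime K N O S i₁) (h : i₁ = i₂) : FibrePrime K N O S i₂ := h ▸ h₁

end Generic

section Rat

open ModularCurve.IgusaScheme

variable (N : ℕ) [NeZero N] (ℓ : ℕ) [hℓ : Fact ℓ.Prime]

set_option quotPrecheck false in
local notation "ℤℓ" => ↥(GaloisRep.ratLocalizedAt ℓ)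

set_option quotPrecheck false in
local notation "F" => ↥(modularFunctionFieldFull N)

/-- The standing hypotheses of the N4 setting hold for `(ℚ, ℤ_(ℓ))`. -/
theorem goodBase (hℓN : ¬ ℓ ∣ N) : GoodBase ℚ N (GaloisRep.ratLocalizedAt ℓ) ℓ where
  prime := hℓ.out
  not_dvd := hℓN
  frac := inferInstance
  not_isUnit := (irreducible_ell ℓ).not_isUnit

theorem baseAlgebra_eq :
    baseAlgebra ℚ N (GaloisRep.ratLocalizedAt ℓ) = igusaAlgebra N ℓ := by
  have h : @algebraMap ℤℓ F _ _ (baseAlgebra ℚ N (GaloisRep.ratLocalizedAt ℓ)) =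
      @algebraMap ℤℓ F _ _ (igusaAlgebra N ℓ) :=
    IsLocalization.ringHom_ext (Ideal.span {(ℓ : ℤ)}).primeCompl (Subsingleton.elim _ _)
  exact Algebra.algebra_ext _ _ fun r => congrArg (fun f : ℤℓ →+* F => f r) h

theorem primeFin_of_setting
    (h : (fibreIdeal ℚ N (GaloisRep.ratLocalizedAt ℓ)
      (Rfin ℚ N (GaloisRep.ratLocalizedAt ℓ))).IsPrime) :
    PrimeFin N ℓ := by
  have h1 : FibrePrime ℚ N (GaloisRep.ratLocalizedAt ℓ) {jF ℚ N}
      (baseAlgebra ℚ N (GaloisRep.ratLocalizedAt ℓ)) := h
  have h2 := h1.congr (baseAlgebra_eq N ℓ)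
  have h3 : ((IsLocalRing.maximalIdeal ℤℓ).map (algebraMap ℤℓ (chartAlgFin N ℓ))).IsPrime := h2
  rw [maximalIdeal_eq, Ideal.map_span, Set.image_singleton] at h3
  exact h3

theorem primeInf_of_setting
    (h : (fibreIdeal ℚ N (GaloisRep.ratLocalizedAt ℓ)
      (Rinf ℚ N (GaloisRep.ratLocalizedAt ℓ))).IsPrime) :
    PrimeInf N ℓ := by
  have h1 : FibrePrime ℚ N (GaloisRep.ratLocalizedAt ℓ) {(jF ℚ N)⁻¹}
      (baseAlgebra ℚ N (GaloisRep.ratLocalizedAt ℓ)) := h
  have h2 := h1.congr (baseAlgebra_eq N ℓ)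
  have h3 : ((IsLocalRing.maximalIdeal ℤℓ).map (algebraMap ℤℓ (chartAlgInf N ℓ))).IsPrime := h2
  rw [maximalIdeal_eq, Ideal.map_span, Set.image_singleton] at h3
  exact h3

section Main

open CategoryTheory CategoryTheory.Limits AlgebraicGeometry

variable (K : Type) [Field K] [CharP K ℓ] [Algebra ↥(GaloisRep.ratLocalizedAt ℓ) K]

/-- The frozen S28 conclusion from the primality of the two fibre ideals of the N4 setting over
`(ℚ, ℤ_(ℓ))`. -/
theorem isIntegral_of_setting_prime
    (hfin : (fibreIdeal ℚ N (GaloisRep.ratLocalizedAt ℓ)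
      (Rfin ℚ N (GaloisRep.ratLocalizedAt ℓ))).IsPrime)
    (hinf : (fibreIdeal ℚ N (GaloisRep.ratLocalizedAt ℓ)
      (Rinf ℚ N (GaloisRep.ratLocalizedAt ℓ))).IsPrime) :
    IsIntegral ↑(pullback (igusaTo N ℓ)
      (Spec.map (CommRingCat.ofHom (algebraMap ↥(GaloisRep.ratLocalizedAt ℓ) K)))) :=
  isIntegral_of_prime N ℓ K (primeFin_of_setting N ℓ hfin) (primeInf_of_setting N ℓ hinf)

/-- **The frozen S28 conclusion from `Setting.StarTarget`** (the deliverable of block S28a). -/
theorem isIntegral_of_starTarget (hstar : StarTarget) (hℓN : ¬ ℓ ∣ N) :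
    IsIntegral ↑(pullback (igusaTo N ℓ)
      (Spec.map (CommRingCat.ofHom (algebraMap ↥(GaloisRep.ratLocalizedAt ℓ) K)))) := by
  have hS : StarStatement ℚ N (GaloisRep.ratLocalizedAt ℓ) :=
    hstar ℚ N (GaloisRep.ratLocalizedAt ℓ) ℓ (goodBase N ℓ hℓN)
  exact isIntegral_of_setting_prime N ℓ K hS.1.isPrime hS.2.isPrime

end Main

end Rat

end Fermat.Agent.S28.FromStar
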